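import Mathlib
import Fermat.Agent.LT.T7.Spec

/-!
# Row LT, tower T7, node T7.13 `ThinC` (mass bound over `F`): SUB-SPEC (helper37), OFF-MAIN

Definitions, frozen Props, PROVED tops.  Nothing is assumed, no opaque constant.
Built on `LT/T7/Spec.lean` v1.2 (helper797@d4e07e123, sha256 76a19604), byte-identical copy.

    thinTop : DictFQC → SqrtC → DegenC → NormSplitC → ChebFC → MassC → T7.ThinC      (PROVED)
    massTop : ClassOneC → NormEmbC → HoroFC → NonconstFC → HoroCoeffFC → MSFC → DirichletC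
                → MassC                                                             (PROVED)

`DictFQC`, `SqrtC` are leaves of `T7/Spec.lean` (T7.06, T7.09), nothing new.

## The argument (no Rankin--Selberg integral, upper bounds only)

`F = fieldF ρ = ℚ(√-3)`, `π` the eigensystem of a cusp form over `F` with `MidData`.

1. `DegenC` (group theory of `GL₂(𝔽₃)`): at almost all primes `p`, every place `v ∣ p` of `F`,
   `g = ρ(Frob_p)`: `b_v = 1` and EITHER `a_v` is the true value `t = tr Ψ (g ^ ordSL g)` OR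
   `det g = 1`, `|a_v|² = 4` and `|t|² = 1` (`g ∈ SL₂ ∖ Q8` has order `3` or `6`,
   `a³ - 3a = tr Ψ (g³) = ± 2`, `x³ - 3x ∓ 2 = (x ∓ 2)(x ± 1)²`).  In particular `|a_v| ≤ 2`.
2. `MassC` (NODE, the method of tower T8 over `F`): `∑_{v ∈ T} |a_v|² N v^{-s} ≤ log (1/(s-1)) + C₁`
   for all finite `T` away from a finite set and all `s ∈ (1, 2]`.
3. `ChebFC`: `∑_{v ∈ T_s} |t_v|² N v^{-s} ≥ log (1/(s-1)) - C₂` for a suitable finite `T_s`
   (`|tr Ψ g|²` on `SL₂(𝔽₃)` is the number of fixed points of `g` on `ℙ¹(𝔽₃)`, i.e. the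
   permutation character of `SL₂(𝔽₃)/B`: the sum is the sum over the degree-one primes of the
   octic field `M = L^B`, and `Lib/Cheb` `PrimeSumStatement` (simple pole of `ζ_M`) applies.
   NO Chebotarev with error term is needed.)
4. `NormSplitC`: the places over a prime with `det ρ(Frob_p) = 1` have norm `p`.
5. Count (in `thinTop`): a degenerate place has `|a_v|² = |t_v|² + 3`, every other place has
   `|a_v|² ≥ |t_v|²`, so `3 ∑_{v ∈ W} N v^{-s} ≤ C₁ + C₂` for every finite set `W` of degenerate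
   places and every `s ∈ (1, 2]`; let `s → 1`.

## The cut of `MassC` (`massTop`)

`K = ℚ(√-3)`, class number one (`ClassOneC`), `e : K →+* ℂ`, `|e x|² = N(x)` (`NormEmbC`).
* `HoroFC` (ADELIC; the analogue over `K` of `T8.HoroC`): the horocycle family
  `U κ z y = φ (n(z)_∞ a(y)_∞ d(κ) g₀)`, `z ∈ ℂ`, `y > 0`, `κ ∈ (𝓞_K / M)ˣ`, is a `HoroDataF`:
  bounded, separately continuous, `M 𝓞_K`-periodic in `z`, with the FUNCTION FORM of the Hecke
  relation at every place `v = (ϖ) ∤ M`.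
* `NonconstFC` (elementary; `T8.nonconst_of_small` over `K`): one place of norm `≥ 7` with
  `|A_v| ≤ 2`, `|B_v| ≤ 1` forces a member of the family to be non-constant in `z`.
* `HoroCoeffFC` (Fourier analysis on the torus `ℂ / M 𝓞_K`): Fourier coefficients of the
  `χ`-isotypic sums are a `SqCoeffData` with a non-vanishing coefficient of non-zero index.
* `MSFC` (abstract, Mathlib only; `H51.MS1` over `K`, squarefree form: NO Hecke sequence, only the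
  relation at `ϖ ∤ ν` is used): `∑_{T' ⊆ T, N T' ≤ X} ∏_{v ∈ T'} |A_v|² ≤ C X`.
* `DirichletC` (real analysis, no number field): partial sums `≤ C X` of a multiplicative weight
  over squarefree products give `∑_i w_i N_i^{-s} ≤ log (1/(s-1)) + C'` (Euler product lower
  bound `∏ (1 + w_i N_i^{-s})`, `log (1 + x) ≥ x - x²/2`).
-/

set_option autoImplicit false

open AutomorphicForm FLT.ExplicitLift EisensteinWeightOne
open IsDedekindDomain NumberField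
open scoped MatrixGroups

noncomputable section

namespace Fermat.Agent.LT.T7.H37

open Fermat.Agent.LT.H130 Fermat.Agent.LT.H556 Fermat.Agent.LT.T7

local notation "Γℚ" => (AlgebraicClosure ℚ ≃ₐ[ℚ] AlgebraicClosure ℚ)

/-! ## 0. Vocabulary -/

/-- The absolute norm `N v` of a finite place, as a real number. -/
def nrm {K : Type} [Field K] [NumberField K] (v : HeightOneSpectrum (𝓞 K)) : ℝ :=
  ((Ideal.absNorm v.asIdeal : ℕ) : ℝ)

/-! ## 1. The leaves and the node of `ThinC` -/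

/-- **LEAF T7.13a DEGEN (elementary: group theory of `GL₂(𝔽₃)` and of the lift `Ψ`).**
Under `LTB.Hyp` and `MidData`: at almost all primes `p`, for every Frobenius element and every
place `v ∣ p` of `F`: `b_v = 1`, and either `a_v` is the true value `tr Ψ (g ^ ordSL g)`, or
`det g = 1`, `|a_v|² = 4` and the true value has `|·|² = 1`.  Moreover `|a_v| ≤ 2` and `b_v = 1`
outside a finite set of PLACES (every place lies over a prime, every prime has a Frobenius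
element, finitely many places over a finite set of primes).
Proof.  `g ∉ SL₂`: `g² ∈ Q8`, `ordQ8 (g²) = 1`, `MidData` is `a_v = tr Ψ (g²)`.  `g ∈ Q8`:
`MidData` is `a_v = tr Ψ g`.  `g ∈ SL₂ ∖ Q8`: `g³ = ± 1`, `Ψ (-1) = -1`, `det Ψ g = 1`, so with
`t = tr Ψ g` Cayley--Hamilton gives `t³ - 3 t = ± 2`; `t = ± 2` would give `(Ψ g ∓ 1)² = 0`, hence
`Ψ g = ± 1` (finite order), hence `g = ± 1`; so `t = ∓ 1`; `MidData` is `a³ - 3 a = ± 2`, so
`a ∈ {∓ 1, ± 2}`.  On `SL₂(𝔽₃)` the values of `tr Ψ` are `2, -2, 0, -1, 1`. -/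
def DegenC : Prop :=
  ∀ (ρ : Γℚ →* GL (Fin 2) (ZMod 3)) (Ψ : GL (Fin 2) (ZMod 3) →* GL (Fin 2) (ℤ√(-2)))
    (ι : ℤ√(-2) →+* ℂ), LTB.Hyp ρ Ψ → ∀ (_ : NumberField (fieldF ρ))
    (π : HeckeEigensystem (fieldF ρ) ℂ), MidData (fieldF ρ) ρ Ψ ι π →
      (AlmostAllFrob (fieldF ρ) ρ fun v g =>
        π.b v = 1 ∧
          (π.a v = trΨ Ψ ι (g ^ ordSL g) ∨
            (Matrix.GeneralLinearGroup.det g = 1 ∧ ‖π.a v‖ ^ 2 = 4 ∧
              ‖trΨ Ψ ι (g ^ ordSL g)‖ ^ 2 = 1))) ∧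
      ∃ S : Finset (HeightOneSpectrum (𝓞 (fieldF ρ))),
        ∀ v : HeightOneSpectrum (𝓞 (fieldF ρ)), v ∉ S → ‖π.a v‖ ≤ 2 ∧ π.b v = 1

/-- **LEAF T7.13b NORMSPLIT (dictionary, Galois theory of `ρ`).**  Outside a finite set of
primes: if `det ρ(Frob_p) = 1` then every place of `F = fieldF ρ` over `p` has norm `p`.
(`F` is the fixed field of `ker (det ∘ ρ)`, a normal subgroup: a Frobenius element with
`det = 1` acts trivially on `F`, so the residue field of `F` at the place below `V` is `𝔽_p`; the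
places of `F` over `p` are conjugate.) -/
def NormSplitC : Prop :=
  ∀ (ρ : Γℚ →* GL (Fin 2) (ZMod 3)) (Ψ : GL (Fin 2) (ZMod 3) →* GL (Fin 2) (ℤ√(-2))),
    LTB.Hyp ρ Ψ → ∀ (_ : NumberField (fieldF ρ)),
      ∃ S : Finset ℕ, ∀ p : ℕ, p.Prime → p ∉ S →
        ∀ V : ValuationSubring (AlgebraicClosure ℚ), V.LiesOverPrime p →
          ∀ σ : Γℚ, V.IsFrobeniusAt σ p → Matrix.GeneralLinearGroup.det (ρ σ) = 1 →
            ∀ w : HeightOneSpectrum (𝓞 (fieldF ρ)), ((p : ℕ) : 𝓞 (fieldF ρ)) ∈ w.asIdeal →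
              Ideal.absNorm w.asIdeal = p

/-- **LEAF T7.13c CHEB (prime sums with `O(1)` error; `Lib/Cheb` `PrimeSumStatement`).**
For every finite set `S` of primes and every finite set `Sp` of places of `F` there is `C` such
that for every `s ∈ (1, 2]` some finite set `T` of places of `F`, away from `Sp` and from the
primes of `S`, carries the mass `log (1/(s-1)) - C` of the TRUE values:
`∑_{v ∈ T} t_v N v^{-s} ≥ log (1/(s-1)) - C`, where `t_v = |tr Ψ (g ^ ordSL g)|²` for EVERY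
Frobenius element at the prime `p` below `v` (and there is one).
Proof.  `L = ℚ̄^{ker ρ}`, `Gal(L/ℚ) = GL₂(𝔽₃)` (`surj`), `B ⊂ SL₂(𝔽₃)` the upper triangular
subgroup (order `6`), `M = L^B` (degree `8`).  For `p` unramified in `L` with `det g = 1`
(`g = ρ(Frob_p)`) the number of primes of `M` of norm `p` is
`2 · #Fix(g | ℙ¹(𝔽₃)) = 2 · |tr Ψ g|²` (values `4, 4, 0, 1, 1` at the orders `1, 2, 4, 3, 6`), there
are two places of `F` over `p`, both of norm `p`; for `det g ≠ 1` there is none.  So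
`∑_{v ∣ p ≤ X, p good, det = 1} t_v N v^{-s} = ∑_{p ≤ X, p good} primeCount M p · p^{-s}`, and
`∑_p primeCount M p · p^{-s} = log (1/(s-1)) + O(1)` (`Fermat.Agent.Lib.Cheb.Spec.PrimeSumStatement`,
on main); take `X` large (depending on `s`). -/
def ChebFC : Prop :=
  ∀ (ρ : Γℚ →* GL (Fin 2) (ZMod 3)) (Ψ : GL (Fin 2) (ZMod 3) →* GL (Fin 2) (ℤ√(-2)))
    (ι : ℤ√(-2) →+* ℂ), LTB.Hyp ρ Ψ → ∀ (_ : NumberField (fieldF ρ)) (S : Finset ℕ)
    (Sp : Finset (HeightOneSpectrum (𝓞 (fieldF ρ)))),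
    ∃ C : ℝ, ∀ s : ℝ, 1 < s → s ≤ 2 →
      ∃ (T : Finset (HeightOneSpectrum (𝓞 (fieldF ρ))))
        (t : HeightOneSpectrum (𝓞 (fieldF ρ)) → ℝ),
        (∀ v ∈ T, v ∉ Sp ∧ ∃ p : ℕ, p.Prime ∧ p ∉ S ∧ ((p : ℕ) : 𝓞 (fieldF ρ)) ∈ v.asIdeal ∧
          (∃ (V : ValuationSubring (AlgebraicClosure ℚ)) (σ : Γℚ),
            V.LiesOverPrime p ∧ V.IsFrobeniusAt σ p) ∧
          ∀ V : ValuationSubring (AlgebraicClosure ℚ), V.LiesOverPrime p →
            ∀ σ : Γℚ, V.IsFrobeniusAt σ p →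
              t v = ‖trΨ Ψ ι ((ρ σ) ^ ordSL (ρ σ))‖ ^ 2) ∧
        Real.log (1 / (s - 1)) - C ≤ ∑ v ∈ T, t v * nrm v ^ (-s)

/-- **NODE T7.13d MASS (the mass bound over `K = ℚ(√-3)`, Dirichlet series form).**
A cusp form over `K` (imaginary quadratic, `√-3 ∈ K`) with `|a_v| ≤ 2`, `b_v = 1` almost
everywhere: `∑_{v ∈ T} |a_v|² N v^{-s} ≤ log (1/(s-1)) + C` for every `s ∈ (1, 2]` and every
finite set `T` of places disjoint from a fixed finite set.  (Leading coefficient ONE: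
`∑_{N 𝔞 ≤ X} |a_𝔞|² = O(X)` gives `D(s) = ∑ |a_𝔞|² N 𝔞^{-s} ≤ C'/(s-1)`, and
`∏_{v ∈ T} (1 + |a_v|² N v^{-s}) ≤ D(s)`.)  Cut into leaves by `massTop`. -/
def MassC : Prop :=
  ∀ (K : Type) [Field K] [NumberField K], IsImagQuad K → HasSqrtNegThree K →
    ∀ π : HeckeEigensystem K ℂ, A0.IsCuspAdelicSph0 K π →
      (∃ S : Finset (HeightOneSpectrum (𝓞 K)), ∀ v : HeightOneSpectrum (𝓞 K), v ∉ S →
        ‖π.a v‖ ≤ 2 ∧ π.b v = 1) →
      ∃ (S : Finset (HeightOneSpectrum (𝓞 K))) (C : ℝ), ∀ s : ℝ, 1 < s → s ≤ 2 →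
        ∀ T : Finset (HeightOneSpectrum (𝓞 K)), Disjoint T S →
          ∑ v ∈ T, ‖π.a v‖ ^ 2 * nrm v ^ (-s) ≤ Real.log (1 / (s - 1)) + C

/-! ## 2. The top of `ThinC` (PROVED) -/

/-- A finite place contains at most one prime number. -/
theorem prime_unique37 {K : Type} [Field K] [NumberField K] (v : HeightOneSpectrum (𝓞 K))
    {p q : ℕ} (hp : p.Prime) (hq : q.Prime) (hpv : ((p : ℕ) : 𝓞 K) ∈ v.asIdeal)
    (hqv : ((q : ℕ) : 𝓞 K) ∈ v.asIdeal) : p = q := by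
  by_contra hne
  have hcop : Nat.Coprime p q := (Nat.coprime_primes hp hq).mpr hne
  have hc : IsCoprime ((p : ℕ) : 𝓞 K) ((q : ℕ) : 𝓞 K) := Nat.Coprime.cast hcop
  obtain ⟨a, b, hab⟩ := hc
  have h1 : (1 : 𝓞 K) ∈ v.asIdeal := by
    rw [← hab]
    exact v.asIdeal.add_mem (v.asIdeal.mul_mem_left a hpv) (v.asIdeal.mul_mem_left b hqv)
  exact v.isPrime.ne_top ((Ideal.eq_top_iff_one _).mpr h1)

theorem nrm_nonneg37 {K : Type} [Field K] [NumberField K] (v : HeightOneSpectrum (𝓞 K)) :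
    0 ≤ nrm v := Nat.cast_nonneg _

theorem nrm_rpow_nonneg37 {K : Type} [Field K] [NumberField K] (v : HeightOneSpectrum (𝓞 K))
    (s : ℝ) : 0 ≤ nrm v ^ s := Real.rpow_nonneg (nrm_nonneg37 v) s

/-- Passage to the limit `s → 1⁺` in a finite sum of `p ^ (-s)`. -/
theorem sum_inv_le_of_forall37 (D : Finset ℕ) (hD : ∀ p ∈ D, 0 < p) (B : ℝ)
    (h : ∀ s : ℝ, 1 < s → s ≤ 2 → ∑ p ∈ D, ((p : ℕ) : ℝ) ^ (-s) ≤ B) :
    ∑ p ∈ D, (((p : ℕ) : ℝ))⁻¹ ≤ B := by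
  have hcont : Continuous fun s : ℝ => ∑ p ∈ D, ((p : ℕ) : ℝ) ^ (-s) := by
    refine continuous_finsetSum D fun p hp => ?_
    have hp0 : ((p : ℕ) : ℝ) ≠ 0 := Nat.cast_ne_zero.mpr (hD p hp).ne'
    exact (Real.continuous_const_rpow hp0).comp continuous_neg
  have hval : (fun s : ℝ => ∑ p ∈ D, ((p : ℕ) : ℝ) ^ (-s)) 1 = ∑ p ∈ D, (((p : ℕ) : ℝ))⁻¹ := by
    simp only [Real.rpow_neg_one]
  have hT : Filter.Tendsto (fun s : ℝ => ∑ p ∈ D, ((p : ℕ) : ℝ) ^ (-s))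
      (nhdsWithin 1 (Set.Ioi 1)) (nhds (∑ p ∈ D, (((p : ℕ) : ℝ))⁻¹)) := by
    rw [← hval]
    exact (hcont.tendsto 1).mono_left nhdsWithin_le_nhds
  refine le_of_tendsto hT ?_
  have hmem : Set.Ioc (1 : ℝ) 2 ∈ nhdsWithin (1 : ℝ) (Set.Ioi 1) :=
    Ioc_mem_nhdsGT (by norm_num)
  filter_upwards [hmem] with s hs
  exact h s hs.1 hs.2

/-- **THE TOP OF NODE T7.13**: `ThinC` from the two dictionary leaves of `T7/Spec.lean`, the
three leaves `DegenC`, `NormSplitC`, `ChebFC` and the node `MassC`. -/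
theorem thinTop (hFQ : DictFQC) (hR : SqrtC) (hDeg : DegenC) (hNorm : NormSplitC) (hCheb : ChebFC)
    (hMass : MassC) : ThinC := by
  classical
  intro ρ Ψ ι hyp nf π hcusp hmid
  obtain ⟨hquad, -⟩ := hFQ ρ Ψ ι hyp nf
  have hsq := hR ρ Ψ hyp
  obtain ⟨⟨S₁, hS₁⟩, hplace⟩ := hDeg ρ Ψ ι hyp nf π hmid
  obtain ⟨S₂, hS₂⟩ := hNorm ρ Ψ hyp nf
  obtain ⟨Sm, C₁, hm⟩ := hMass (fieldF ρ) hquad hsq π hcusp hplace
  set Sb : Finset ℕ := S₁ ∪ S₂ ∪ Sm.image (fun v => Ideal.absNorm v.asIdeal) with hSb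
  obtain ⟨C₂, hc⟩ := hCheb ρ Ψ ι hyp nf Sb Sm
  have hSb₁ : ∀ p : ℕ, p ∉ Sb → p ∉ S₁ := fun p h h' =>
    h (Finset.mem_union_left _ (Finset.mem_union_left _ h'))
  have hSb₂ : ∀ p : ℕ, p ∉ Sb → p ∉ S₂ := fun p h h' =>
    h (Finset.mem_union_left _ (Finset.mem_union_right _ h'))
  -- the degenerate places
  set DegPl : Set (HeightOneSpectrum (𝓞 (fieldF ρ))) := {w | ∃ (p : ℕ)
    (V : ValuationSubring (AlgebraicClosure ℚ)) (σ : Γℚ), p.Prime ∧ p ∉ Sb ∧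
      V.LiesOverPrime p ∧ V.IsFrobeniusAt σ p ∧ ((p : ℕ) : 𝓞 (fieldF ρ)) ∈ w.asIdeal ∧
      π.a w ≠ trΨ Ψ ι ((ρ σ) ^ ordSL (ρ σ))} with hDegPl
  -- the degenerate primes
  set Deg : Set ℕ := {p | p.Prime ∧ p ∉ Sb ∧ ∃ (V : ValuationSubring (AlgebraicClosure ℚ))
    (σ : Γℚ) (w : HeightOneSpectrum (𝓞 (fieldF ρ))), V.LiesOverPrime p ∧ V.IsFrobeniusAt σ p ∧
      ((p : ℕ) : 𝓞 (fieldF ρ)) ∈ w.asIdeal ∧ π.a w ≠ trΨ Ψ ι ((ρ σ) ^ ordSL (ρ σ))} with hDeg'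
  -- facts on degenerate places
  have hdeg4 : ∀ w ∈ DegPl, ‖π.a w‖ ^ 2 = 4 ∧ w ∉ Sm := by
    rintro w ⟨p, V, σ, hp, hpSb, hV, hσ, hw, hne⟩
    obtain ⟨-, h | ⟨hdet, h4, -⟩⟩ := hS₁ p hp (hSb₁ p hpSb) V hV σ hσ w hw
    · exact absurd h hne
    · refine ⟨h4, fun hwS => hpSb ?_⟩
      have hn := hS₂ p hp (hSb₂ p hpSb) V hV σ hσ hdet w hw
      exact Finset.mem_union_right _ (Finset.mem_image.mpr ⟨w, hwS, hn⟩)
  -- the key inequality
  have hkey : ∀ W : Finset (HeightOneSpectrum (𝓞 (fieldF ρ))), (∀ w ∈ W, w ∈ DegPl) →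
      ∀ s : ℝ, 1 < s → s ≤ 2 → 3 * ∑ w ∈ W, nrm w ^ (-s) ≤ C₁ + C₂ := by
    intro W hW s hs1 hs2
    obtain ⟨T, t, hT, hsum⟩ := hc s hs1 hs2
    have hdisj : Disjoint (T ∪ W) Sm := by
      rw [Finset.disjoint_left]
      intro v hv hvS
      rcases Finset.mem_union.mp hv with h | h
      · exact (hT v h).1 hvS
      · exact (hdeg4 v (hW v h)).2 hvS
    have hup := hm s hs1 hs2 (T ∪ W) hdisj
    -- pointwise lower bound
    have hpt : ∀ v ∈ T ∪ W,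
        ((if v ∈ T then t v else 0) + (if v ∈ W then 3 else 0)) * nrm v ^ (-s)
          ≤ ‖π.a v‖ ^ 2 * nrm v ^ (-s) := by
      intro v hv
      refine mul_le_mul_of_nonneg_right ?_ (nrm_rpow_nonneg37 v _)
      by_cases hvT : v ∈ T
      · obtain ⟨-, p', hp', hp'S, hp'v, ⟨V', σ', hV', hσ'⟩, hall⟩ := hT v hvT
        have ht := hall V' hV' σ' hσ'
        obtain ⟨-, hcase⟩ := hS₁ p' hp' (hSb₁ p' hp'S) V' hV' σ' hσ' v hp'v
        by_cases hvW : v ∈ W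
        · obtain ⟨p, V, σ, hp, hpSb, hV, hσ, hw, hne⟩ := hW v hvW
          have hpp : p = p' := prime_unique37 v hp hp' hw hp'v
          subst hpp
          have ht' := hall V hV σ hσ
          obtain ⟨-, h | ⟨-, h4, h1⟩⟩ := hS₁ p hp (hSb₁ p hpSb) V hV σ hσ v hw
          · exact absurd h hne
          · rw [if_pos hvT, if_pos hvW, ht', h1, h4]
            norm_num
        · rw [if_pos hvT, if_neg hvW, add_zero, ht]
          rcases hcase with h | ⟨-, h4, h1⟩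
          · rw [h]
          · rw [h4, h1]
            norm_num
      · have hvW : v ∈ W := by
          rcases Finset.mem_union.mp hv with h | h
          · exact absurd h hvT
          · exact h
        rw [if_neg hvT, if_pos hvW, zero_add, (hdeg4 v (hW v hvW)).1]
        norm_num
    have hlow := Finset.sum_le_sum hpt
    have e1 : ∑ v ∈ T ∪ W, ((if v ∈ T then t v else 0) + (if v ∈ W then 3 else 0))
          * nrm v ^ (-s)
        = ∑ v ∈ T, t v * nrm v ^ (-s) + 3 * ∑ w ∈ W, nrm w ^ (-s) := by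
      simp only [add_mul, Finset.sum_add_distrib]
      congr 1
      · rw [← Finset.sum_subset (Finset.subset_union_left (s₁ := T) (s₂ := W))]
        · exact Finset.sum_congr rfl fun v hv => by rw [if_pos hv]
        · intro v _ hv
          rw [if_neg hv, zero_mul]
      · rw [← Finset.sum_subset (Finset.subset_union_right (s₁ := T) (s₂ := W)), Finset.mul_sum]
        · exact Finset.sum_congr rfl fun v hv => by rw [if_pos hv]
        · intro v _ hv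
          rw [if_neg hv, zero_mul]
    rw [e1] at hlow
    linarith
  -- degenerate primes carry degenerate places of the same norm
  have hex : ∀ p : ℕ, p ∈ Deg → ∃ w : HeightOneSpectrum (𝓞 (fieldF ρ)),
      w ∈ DegPl ∧ Ideal.absNorm w.asIdeal = p := by
    rintro p ⟨hp, hpSb, V, σ, w, hV, hσ, hw, hne⟩
    refine ⟨w, ⟨p, V, σ, hp, hpSb, hV, hσ, hw, hne⟩, ?_⟩
    obtain ⟨-, h | ⟨hdet, -, -⟩⟩ := hS₁ p hp (hSb₁ p hpSb) V hV σ hσ w hw
    · exact absurd h hne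
    · exact hS₂ p hp (hSb₂ p hpSb) V hV σ hσ hdet w hw
  choose wf hwf using hex
  have hDsum : ∀ D : Finset ℕ, (∀ p ∈ D, p ∈ Deg) →
      ∑ p ∈ D, (((p : ℕ) : ℝ))⁻¹ ≤ (C₁ + C₂) / 3 := by
    intro D hD
    refine sum_inv_le_of_forall37 D (fun p hp => (hD p hp).1.pos) _ fun s hs1 hs2 => ?_
    set W : Finset (HeightOneSpectrum (𝓞 (fieldF ρ))) :=
      D.attach.image (fun x => wf x.1 (hD x.1 x.2)) with hWdef
    have hinj : ∀ x ∈ D.attach, ∀ y ∈ D.attach,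
        wf x.1 (hD x.1 x.2) = wf y.1 (hD y.1 y.2) → x = y := by
      intro x _ y _ hxy
      apply Subtype.ext
      rw [← (hwf x.1 (hD x.1 x.2)).2, ← (hwf y.1 (hD y.1 y.2)).2, hxy]
    have hWD : ∀ w ∈ W, w ∈ DegPl := by
      intro w hw
      obtain ⟨x, -, rfl⟩ := Finset.mem_image.mp hw
      exact (hwf x.1 (hD x.1 x.2)).1
    have hk := hkey W hWD s hs1 hs2
    have e : ∑ w ∈ W, nrm w ^ (-s) = ∑ p ∈ D, ((p : ℕ) : ℝ) ^ (-s) := by
      rw [hWdef, Finset.sum_image hinj, ← Finset.sum_attach D]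
      refine Finset.sum_congr rfl fun x _ => ?_
      unfold nrm
      rw [(hwf x.1 (hD x.1 x.2)).2]
    rw [e] at hk
    linarith
  refine ⟨(Sb : Set ℕ) ∪ Deg, ?_, ?_⟩
  · -- thin
    unfold IsThin
    refine summable_of_sum_le (c := ∑ p ∈ Sb, (((p : ℕ) : ℝ))⁻¹ + (C₁ + C₂) / 3)
      (fun x => inv_nonneg.mpr (Nat.cast_nonneg _)) fun u => ?_
    have e : ∑ x ∈ u, (((x : ℕ) : ℝ))⁻¹ = ∑ p ∈ u.image Subtype.val, (((p : ℕ) : ℝ))⁻¹ := by
      rw [Finset.sum_image]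
      intro x _ y _ hxy
      exact Subtype.ext hxy
    rw [e, ← Finset.sum_filter_add_sum_filter_not (u.image Subtype.val) (fun p => p ∈ Sb)]
    refine add_le_add ?_ ?_
    · refine Finset.sum_le_sum_of_subset_of_nonneg ?_ fun p _ _ =>
        inv_nonneg.mpr (Nat.cast_nonneg _)
      intro p hp
      exact (Finset.mem_filter.mp hp).2
    · refine hDsum _ fun p hp => ?_
      obtain ⟨hp1, hp2⟩ := Finset.mem_filter.mp hp
      obtain ⟨x, -, rfl⟩ := Finset.mem_image.mp hp1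
      rcases x.2 with h | h
      · exact absurd h hp2
      · exact h
  · intro p hp hpA V hV σ hσ w hw
    have hpSb : p ∉ Sb := fun h => hpA (Or.inl h)
    obtain ⟨hb, -⟩ := hS₁ p hp (hSb₁ p hpSb) V hV σ hσ w hw
    refine ⟨?_, hb⟩
    by_contra hne
    exact hpA (Or.inr ⟨hp, hpSb, V, σ, w, hV, hσ, hw, hne⟩)

/-! ## 3. The cut of the node `MassC` -/

section Horo

variable (K : Type) [Field K] [NumberField K]

/-- The class of `x : 𝓞 K` in `(𝓞 K / M)ˣ` (`1` if `x` is not invertible modulo `M`). -/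
def unitClsF (M : ℕ) (x : 𝓞 K) : (𝓞 K ⧸ Ideal.span {((M : ℕ) : 𝓞 K)})ˣ := by
  classical
  exact if h : IsUnit (Ideal.Quotient.mk (Ideal.span {((M : ℕ) : 𝓞 K)}) x) then h.unit else 1

/-- `R` is a complete system of residues of `𝓞 K` modulo `ϖ`. -/
def IsResSys (ϖ : 𝓞 K) (R : Finset (𝓞 K)) : Prop :=
  (∀ x : 𝓞 K, ∃ j ∈ R, ϖ ∣ x - j) ∧ ∀ j ∈ R, ∀ j' ∈ R, ϖ ∣ j - j' → j = j'

/-- **Horocycle data over `K`** (`K` imaginary quadratic of class number one, `e : K →+* ℂ`) of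
level `M`: a finite family `U κ : ℂ × ℝ_{>0} → ℂ`, `κ ∈ (𝓞_K / M)ˣ`, of bounded functions,
separately continuous, periodic in `z` under the lattice `M · e(𝓞_K)`, with the function form of
the Hecke relation with eigenvalues `√(N v) · A v` and `B v` at every place `v = (ϖ) ∤ M`, for
every generator `ϖ` of `v` and every system `R` of residues modulo `ϖ`:

  `∑_{j ∈ R} U (κ [ϖ]) ((z + M e(j)) / e(ϖ)) (y / |e ϖ|) + B v · U (κ [ϖ]⁻¹) (e(ϖ) z) (|e ϖ| y)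
      = √(N v) · A v · U κ z y`.

(The analogue over `K` of `T8.HoroData`; `|e ϖ| = √(N v)`.) -/
structure HoroDataF (e : K →+* ℂ) (M : ℕ) (A B : HeightOneSpectrum (𝓞 K) → ℂ)
    (U : (𝓞 K ⧸ Ideal.span {((M : ℕ) : 𝓞 K)})ˣ → ℂ → ℝ → ℂ) (C : ℝ) : Prop where
  M_pos : 0 < M
  cont_z : ∀ κ : (𝓞 K ⧸ Ideal.span {((M : ℕ) : 𝓞 K)})ˣ, ∀ y : ℝ, 0 < y →
    Continuous (fun z : ℂ => U κ z y)
  cont_y : ∀ κ : (𝓞 K ⧸ Ideal.span {((M : ℕ) : 𝓞 K)})ˣ, ∀ z : ℂ,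
    ContinuousOn (fun y : ℝ => U κ z y) (Set.Ioi 0)
  bdd : ∀ κ : (𝓞 K ⧸ Ideal.span {((M : ℕ) : 𝓞 K)})ˣ, ∀ (z : ℂ) (y : ℝ), 0 < y →
    ‖U κ z y‖ ≤ C
  periodic : ∀ κ : (𝓞 K ⧸ Ideal.span {((M : ℕ) : 𝓞 K)})ˣ, ∀ (l : 𝓞 K) (z : ℂ) (y : ℝ),
    0 < y → U κ (z + (M : ℂ) * e (l : K)) y = U κ z y
  hecke : ∀ (v : HeightOneSpectrum (𝓞 K)) (ϖ : 𝓞 K), v.asIdeal = Ideal.span {ϖ} →
    ((M : ℕ) : 𝓞 K) ∉ v.asIdeal → ∀ R : Finset (𝓞 K), IsResSys K ϖ R →
    ∀ κ : (𝓞 K ⧸ Ideal.span {((M : ℕ) : 𝓞 K)})ˣ, ∀ (z : ℂ) (y : ℝ), 0 < y →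
      ∑ j ∈ R, U (κ * unitClsF K M ϖ) ((z + (M : ℂ) * e (j : K)) / e (ϖ : K))
            (y / ‖e (ϖ : K)‖)
          + B v * U (κ * (unitClsF K M ϖ)⁻¹) (e (ϖ : K) * z) (‖e (ϖ : K)‖ * y)
        = ((Real.sqrt (nrm v) : ℝ) : ℂ) * A v * U κ z y

/-- **Coefficient data over `K`, squarefree form** (the analogue over `K` of `H51.CoeffData`;
only the Hecke relation at `ϖ ∤ ν` is recorded): `c ν y`, `ν ∈ 𝓞_K`, `y > 0`, continuous in `y`,
with Bessel's inequality, and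

  `√(N v) · A v · c ν y = χ ϖ · N v · c (ϖ ν) (y / |e ϖ|)`      (`v = (ϖ) ∤ M`, `ν ≠ 0`, `ϖ ∤ ν`)

with a unitary twist `χ`. -/
structure SqCoeffData (e : K →+* ℂ) (M : ℕ) (A : HeightOneSpectrum (𝓞 K) → ℂ)
    (χ : 𝓞 K → ℂ) (c : 𝓞 K → ℝ → ℂ) (M₁ : ℝ) : Prop where
  chi_norm : ∀ (v : HeightOneSpectrum (𝓞 K)) (ϖ : 𝓞 K), v.asIdeal = Ideal.span {ϖ} →
    ((M : ℕ) : 𝓞 K) ∉ v.asIdeal → ‖χ ϖ‖ = 1
  cont : ∀ ν : 𝓞 K, ContinuousOn (c ν) (Set.Ioi 0)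
  bessel : ∀ y : ℝ, 0 < y → ∀ F : Finset (𝓞 K), ∑ ν ∈ F, ‖c ν y‖ ^ 2 ≤ M₁ ^ 2
  star : ∀ (v : HeightOneSpectrum (𝓞 K)) (ϖ : 𝓞 K), v.asIdeal = Ideal.span {ϖ} →
    ((M : ℕ) : 𝓞 K) ∉ v.asIdeal → ∀ ν : 𝓞 K, ν ≠ 0 → ¬ ϖ ∣ ν → ∀ y : ℝ, 0 < y →
      ((Real.sqrt (nrm v) : ℝ) : ℂ) * A v * c ν y
        = χ ϖ * ((nrm v : ℝ) : ℂ) * c (ϖ * ν) (y / ‖e (ϖ : K)‖)

end Horo

/-- **LEAF T7.13e CLASSONE.**  `𝓞_K` is a principal ideal domain for `K = ℚ(√-3)`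
(`K` is the third cyclotomic field: Mathlib `IsCyclotomicExtension.Rat.three_pid`). -/
def ClassOneC : Prop :=
  ∀ (K : Type) [Field K] [NumberField K], IsImagQuad K → HasSqrtNegThree K →
    IsPrincipalIdealRing (𝓞 K)

/-- **LEAF T7.13f NORMEMB.**  For an imaginary quadratic field and any `e : K →+* ℂ`:
`|e x|² = N (x)` (`N_{K/ℚ} x = e x · conj (e x)`: the two embeddings of `K` are `e` and its
conjugate, no embedding is real; `Ideal.absNorm_span_singleton`). -/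
def NormEmbC : Prop :=
  ∀ (K : Type) [Field K] [NumberField K], IsImagQuad K → ∀ (e : K →+* ℂ) (x : 𝓞 K),
    ‖e (x : K)‖ ^ 2 = ((Ideal.absNorm (Ideal.span {x}) : ℕ) : ℝ)

/-- **LEAF T7.13g HOROF (ADELIC; the analogue over `K` of `T8.HoroC`).**  For a cusp form `φ` as
in A0 over `K` (imaginary quadratic, class number one) and a base point `g₀`: with `e` the
embedding of the infinite place, `g₀ = n(z₀)_∞ a(y₀)_∞ k_∞ g_f` (Iwasawa decomposition at the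
complex place; `φ` is right invariant under `ℝ_{>0} U(2)`), `M` such that `π.level ∣ M`,
`g_f ∈ GL₂(𝒪_v)` for `v ∤ M` and `U(M) ⊂ g_f U(π.level) g_f⁻¹`, the family
`U κ z y = φ (n(z)_∞ a(y)_∞ d(κ) g_f)` (`d(κ)` = diagonal twist at the places dividing `M`) is a
`HoroDataF` and `U 1 z₀ y₀ = φ g₀`.
Hecke relation: left invariance under `[ϖ, j M; 0, 1]` and `[1, 0; 0, ϖ] ∈ GL₂(K)`;
`[ϖ, *; 0, 1]_∞ n(z) a(y) = n(·) a(y / |ϖ|) · diag(phase, 1)` and `diag(phase, 1) ∈ U(2)` stands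
at the far right BECAUSE the archimedean component of `g_f` is trivial; the scalar `ϖ` at the
places dividing `M` is moved to `v` (eigenvalue `B v`), to infinity and to the units.
No cuspidality, no mean value property, no Haar measure is used. -/
def HoroFC : Prop :=
  ∀ (K : Type) [Field K] [NumberField K], IsImagQuad K → IsPrincipalIdealRing (𝓞 K) →
    ∀ (π : HeckeEigensystem K ℂ) (φ : A0.G K → ℂ), A0.IsSph0CuspFormFor π φ →
      ∀ g₀ : A0.G K,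
        ∃ (e : K →+* ℂ) (M : ℕ) (U : (𝓞 K ⧸ Ideal.span {((M : ℕ) : 𝓞 K)})ˣ → ℂ → ℝ → ℂ)
          (C : ℝ), HoroDataF K e M π.a π.b U C ∧
            ∃ (z₀ : ℂ) (y₀ : ℝ), 0 < y₀ ∧ U 1 z₀ y₀ = φ g₀

/-- **LEAF T7.13h NONCONST (elementary; `T8.nonconst_of_small` over `K`).**  A horocycle family
with a non-zero value and `|A v| ≤ 2`, `|B v| ≤ 1` almost everywhere has a member which is not
constant in `z`: otherwise the Hecke relation at ONE place `v = (ϖ) ∤ M` with `N v ≥ 7` gives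
`N v · s ≤ (2 √(N v) + 1) · s` for `s = sup |U|` (a system of residues modulo `ϖ` has `N v`
elements; there are infinitely many places). -/
def NonconstFC : Prop :=
  ∀ (K : Type) [Field K] [NumberField K], IsPrincipalIdealRing (𝓞 K) →
    ∀ (e : K →+* ℂ) (M : ℕ) (A B : HeightOneSpectrum (𝓞 K) → ℂ)
      (U : (𝓞 K ⧸ Ideal.span {((M : ℕ) : 𝓞 K)})ˣ → ℂ → ℝ → ℂ) (C : ℝ),
      HoroDataF K e M A B U C →
      (∃ S : Finset (HeightOneSpectrum (𝓞 K)), ∀ v : HeightOneSpectrum (𝓞 K), v ∉ S →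
        ‖A v‖ ≤ 2 ∧ ‖B v‖ ≤ 1) →
      (∃ (κ : (𝓞 K ⧸ Ideal.span {((M : ℕ) : 𝓞 K)})ˣ) (z : ℂ) (y : ℝ), 0 < y ∧ U κ z y ≠ 0) →
      ∃ (κ : (𝓞 K ⧸ Ideal.span {((M : ℕ) : 𝓞 K)})ˣ) (z z' : ℂ) (y : ℝ),
        0 < y ∧ U κ z y ≠ U κ z' y

/-- **LEAF T7.13i HOROCOEFF (Fourier analysis on the torus `ℂ / M e(𝓞_K)`; the analogue over `K`
of `T8.HoroCoeffC`).**  `K = ℚ(√-3)`.  For a character `χ` of `(𝓞_K / M)ˣ` and `ν ∈ 𝓞_K` let
`c ν y` be the Fourier coefficient of `∑_κ χ(κ)⁻¹ U κ (·, y)` at the character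
`z ↦ exp (2 π i Re (w_ν z))`, `w_ν = 2 e(ν) / (M √-3)` (the dual lattice of `M e(𝓞_K)` for the
pairing `Re (w z)` is `(2 / (M √-3)) e(𝓞_K)`).  Bessel's inequality with
`M₁ = ∑_κ sup |U κ|`; continuity in `y` by dominated convergence; the Hecke relation of
`HoroDataF` gives `star` (the sum over `j` kills the frequencies `ν` with `ϖ ∤ ν`, and
`U (e(ϖ) z)` has frequencies in `ϖ 𝓞_K` only); a non-constant member has a non-zero coefficient
of non-zero index for some `χ` (completeness of the characters of the torus: Mathlib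
`UnitAddTorus.mFourier`). -/
def HoroCoeffFC : Prop :=
  ∀ (K : Type) [Field K] [NumberField K], IsImagQuad K → HasSqrtNegThree K →
    IsPrincipalIdealRing (𝓞 K) →
    ∀ (e : K →+* ℂ) (M : ℕ) (A B : HeightOneSpectrum (𝓞 K) → ℂ)
      (U : (𝓞 K ⧸ Ideal.span {((M : ℕ) : 𝓞 K)})ˣ → ℂ → ℝ → ℂ) (C : ℝ),
      HoroDataF K e M A B U C →
      (∃ (κ : (𝓞 K ⧸ Ideal.span {((M : ℕ) : 𝓞 K)})ˣ) (z z' : ℂ) (y : ℝ),
        0 < y ∧ U κ z y ≠ U κ z' y) →
      ∃ (χ : 𝓞 K → ℂ) (c : 𝓞 K → ℝ → ℂ) (M₁ : ℝ), SqCoeffData K e M A χ c M₁ ∧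
        ∃ k : 𝓞 K, k ≠ 0 ∧ ∃ y : ℝ, 0 < y ∧ c k y ≠ 0

/-- **LEAF T7.13j MSF (abstract mean square bound, squarefree form; `H51.MS1` over `K`).**
From `SqCoeffData` with a non-vanishing coefficient `c k`, `k ≠ 0`: with `S` the set of places
dividing `M k`, for `T` disjoint from `S`, generators `ϖ_v` (`v ∈ T`) and `T' ⊆ T`:
`c (k ∏_{v ∈ T'} ϖ_v) y = (∏ χ(ϖ_v)⁻¹ A_v N v^{-1/2}) · c k (y √(N T'))` (induction, `star`),
the indices are pairwise different, Bessel's inequality at the height `y = t₂ / √X`, where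
`|c k| ≥ δ > 0` on `[t₁, t₂]`: `∑_{X t₁²/t₂² ≤ N T' ≤ X} ∏ |A_v|² ≤ X M₁² / δ²`; geometric
summation over the blocks.  Mathlib only. -/
def MSFC : Prop :=
  ∀ (K : Type) [Field K] [NumberField K], IsPrincipalIdealRing (𝓞 K) →
    ∀ (e : K →+* ℂ) (M : ℕ) (A : HeightOneSpectrum (𝓞 K) → ℂ) (χ : 𝓞 K → ℂ)
      (c : 𝓞 K → ℝ → ℂ) (M₁ : ℝ), 0 < M →
      (∀ x : 𝓞 K, ‖e (x : K)‖ ^ 2 = ((Ideal.absNorm (Ideal.span {x}) : ℕ) : ℝ)) →
      SqCoeffData K e M A χ c M₁ →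
      (∃ k : 𝓞 K, k ≠ 0 ∧ ∃ y : ℝ, 0 < y ∧ c k y ≠ 0) →
      ∃ (S : Finset (HeightOneSpectrum (𝓞 K))) (C : ℝ),
        ∀ T : Finset (HeightOneSpectrum (𝓞 K)), Disjoint T S → ∀ X : ℝ, 1 ≤ X →
          ∑ T' ∈ T.powerset.filter (fun T' => ∏ v ∈ T', nrm v ≤ X), ∏ v ∈ T', ‖A v‖ ^ 2
            ≤ C * X

/-- **LEAF T7.13k DIRICHLET (real analysis, no number field).**  Weights `0 ≤ w i ≤ 4`, norms
`N i ≥ 2`; if the partial sums over the squarefree products are `≤ C X`, then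
`∑_{i ∈ T} w i N i^{-s} ≤ log (1/(s-1)) + C'` for `s ∈ (1, 2]`, uniformly in `T`.
Proof.  `∏_{i ∈ T} (1 + w_i N_i^{-s}) = ∑_{T' ⊆ T} w_{T'} N_{T'}^{-s} ≤ 2 C / (s - 1)` (Abel
summation or dyadic blocks), `log (1 + x) ≥ x - x² / 2`, and
`∑ (w_i N_i^{-s})² ≤ 4 ∑ w_i N_i^{-2} ≤ 8 C` (dyadic blocks, singletons `T' = {i}`). -/
def DirichletC : Prop :=
  ∀ (ι : Type) (N w : ι → ℝ) (S : Finset ι) (C : ℝ), (∀ i, 2 ≤ N i) →
    (∀ i, i ∉ S → 0 ≤ w i ∧ w i ≤ 4) →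
    (∀ T : Finset ι, Disjoint T S → ∀ X : ℝ, 1 ≤ X →
      ∑ T' ∈ T.powerset.filter (fun T' => ∏ i ∈ T', N i ≤ X), ∏ i ∈ T', w i ≤ C * X) →
    ∃ C' : ℝ, ∀ s : ℝ, 1 < s → s ≤ 2 → ∀ T : Finset ι, Disjoint T S →
      ∑ i ∈ T, w i * N i ^ (-s) ≤ Real.log (1 / (s - 1)) + C'

/-! ## 4. The top of `MassC` (PROVED) -/

theorem two_le_nrm37 {K : Type} [Field K] [NumberField K] (v : HeightOneSpectrum (𝓞 K)) :
    2 ≤ nrm v := by
  unfold nrm
  have h0 : Ideal.absNorm v.asIdeal ≠ 0 := fun h => v.ne_bot (Ideal.absNorm_eq_zero_iff.mp h)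
  have h1 : Ideal.absNorm v.asIdeal ≠ 1 := fun h =>
    v.isPrime.ne_top (Ideal.absNorm_eq_one_iff.mp h)
  have : 2 ≤ Ideal.absNorm v.asIdeal := by omega
  exact_mod_cast this

/-- **THE TOP OF NODE T7.13d**: the mass bound over `K = ℚ(√-3)` from its seven leaves. -/
theorem massTop (hCl : ClassOneC) (hNE : NormEmbC) (hH : HoroFC) (hNC : NonconstFC)
    (hCo : HoroCoeffFC) (hMS : MSFC) (hDir : DirichletC) : MassC := by
  intro K _ _ hquad hsq π hcusp hsmall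
  have hpid : IsPrincipalIdealRing (𝓞 K) := hCl K hquad hsq
  obtain ⟨φ, hφ⟩ := hcusp
  obtain ⟨g₀, hg₀⟩ := hφ.ne_zero
  obtain ⟨e, M, U, C, hD, z₀, y₀, hy₀, hlink⟩ := hH K hquad hpid π φ hφ g₀
  obtain ⟨S₀, hS₀⟩ := hsmall
  have hsmall' : ∃ S : Finset (HeightOneSpectrum (𝓞 K)), ∀ v : HeightOneSpectrum (𝓞 K),
      v ∉ S → ‖π.a v‖ ≤ 2 ∧ ‖π.b v‖ ≤ 1 :=
    ⟨S₀, fun v hv => ⟨(hS₀ v hv).1, by rw [(hS₀ v hv).2, norm_one]⟩⟩
  have hne : ∃ (κ : (𝓞 K ⧸ Ideal.span {((M : ℕ) : 𝓞 K)})ˣ) (z : ℂ) (y : ℝ),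
      0 < y ∧ U κ z y ≠ 0 := ⟨1, z₀, y₀, hy₀, by rw [hlink]; exact hg₀⟩
  have hnc := hNC K hpid e M π.a π.b U C hD hsmall' hne
  obtain ⟨χ, c, M₁, hCD, hk⟩ := hCo K hquad hsq hpid e M π.a π.b U C hD hnc
  obtain ⟨S, C₁, hms⟩ := hMS K hpid e M π.a χ c M₁ hD.M_pos (hNE K hquad e) hCD hk
  classical
  obtain ⟨C', hC'⟩ := hDir (HeightOneSpectrum (𝓞 K)) nrm (fun v => ‖π.a v‖ ^ 2) (S ∪ S₀) C₁
    two_le_nrm37
    (fun v hv => by
      have hv₀ : v ∉ S₀ := fun h => hv (Finset.mem_union_right _ h)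
      have h2 := (hS₀ v hv₀).1
      have h0 := norm_nonneg (π.a v)
      constructor
      · positivity
      · nlinarith)
    (fun T hT X hX => hms T (Finset.disjoint_of_subset_right Finset.subset_union_left hT) X hX)
  exact ⟨S ∪ S₀, C', fun s hs1 hs2 T hT => hC' s hs1 hs2 T hT⟩

/-- `ThinC` from the leaves of T7.13 (composition of `thinTop` and `massTop`). -/
theorem thinTop' (hFQ : DictFQC) (hR : SqrtC) (hDeg : DegenC) (hNorm : NormSplitC) (hCheb : ChebFC)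
    (hCl : ClassOneC) (hNE : NormEmbC) (hH : HoroFC) (hNC : NonconstFC) (hCo : HoroCoeffFC)
    (hMS : MSFC) (hDir : DirichletC) : ThinC :=
  thinTop hFQ hR hDeg hNorm hCheb (massTop hCl hNE hH hNC hCo hMS hDir)

end Fermat.Agent.LT.T7.H37

end
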