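import Fermat.Agent.LT.T7.H37.ThinAdapt
import Fermat.Agent.LT.T7.H8.NormSplit
import Fermat.Agent.LT.T7.H91.ClassOne
import Fermat.Agent.LT.T7.H949.Nonconst
import Fermat.Agent.LT.T7.H682.Degen
import Fermat.Agent.LT.T7.H468.HoroF
import Fermat.Agent.LT.T7.H236.MSF
import Fermat.Agent.LT.T7.H980.Dirichlet
import Fermat.Agent.LT.T7.H546.Sqrt

/-!
# Row LT, tower T7, node T7.13 `ThinC` (sub-architect helper37): STATE OF THE NODE

OFF-MAIN.  Pattern of `LT/T1/Closed.lean` (helper54) / `LT/T8/Closed.lean` (helper19).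

`thin_of_open : ThinOpen → DictFQC → SqrtC → T7.ThinC`; `ThinOpen` lists the leaves of the node
still to be proved, one field each.  `DictFQC` (T7.06) and `SqrtC` (T7.09) are leaves of
`LT/T7/Spec.lean` itself and stay hypotheses.  Closed leaves are discharged by byte-identical
copies of the volunteers' files.

| leaf | registry | state |
|---|---|---|
| T7.13a `DegenC` | 1269 | CLOSED helper682 `degenC682` (H682/Degen.lean d01bb211) |
| T7.13b `NormSplitC` | 1270 | CLOSED helper8 `normSplitC_h8` (H8/NormSplit.lean 0ac6ec8f, on H922/DictFQ.lean 80550eb1 of helper922) |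
| T7.13e `ClassOneC` | 1272 | CLOSED helper91 `classOneC91` (H91/ClassOne.lean 1348db5f) |
| T7.13f `NormEmbC` | 1272 | CLOSED helper91 `normEmbC91` |
| T7.13g `HoroFC` = `H468.HoroCF468` (adelic half) | 1273 | CLOSED helper468 `horoCF468` (H468/{HoroF 941ba567, HoroFFam f312386d, HoroFBase 8a32ceb2, IwasawaC e0ee5b4c}.lean, on MS4A-D of helper51 and T8/H864/{Local,Coset} of helper864) |
| T7.13h `NonconstFC` | 1274 | CLOSED helper949 `nonconstFC949` (H949/Nonconst.lean 3879cc2d) |
| T7.13j `MSFC` | 1276 | CLOSED helper236 `msfC236` (H236/{MSF 59258a8e, MSFCore 18a285bc}.lean) |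
| T7.13k `DirichletC` | 1277 | CLOSED helper980 `dirichletC980` (H980/{Dirichlet 9cd4555c, DirichletCore 5f826c54}.lean) |
| T7.13c `ChebFC` | 1271 | OPEN, helper341 (asset FrobDivO1 of helper849) |
| T7.13i `HoroCoeffFC` (Fourier analysis on `ℂ / M 𝓞_K`) | 1275 | OPEN, helper768; or the package of helper47 for `SqMass468C` (row 1353) |
-/

set_option autoImplicit false

namespace Fermat.Agent.LT.T7.H37

open Fermat.Agent.LT.T7 Fermat.Agent.LT.T7.H468

/-- The classical half from the ONE leaf still open on it (`NormEmbC`, `NonconstFC`, `MSFC`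
are closed). -/
theorem sqMass468C_of_horoCoeff (hCo : HoroCoeffFC) : SqMass468C :=
  sqMass468C_of Fermat.Agent.LT.T7.H91.normEmbC91 Fermat.Agent.LT.T7.H949.nonconstFC949 hCo
    Fermat.Agent.LT.T7.H236.msfC236

/-- THE OPEN PART of node T7.13: the leaves still to be proved.  (`sqMass` is closed by
`sqMass468C_of_horoCoeff` from `HoroCoeffFC`, row 1275, or directly by row 1353.) -/
structure ThinOpen : Prop where
  chebF : ChebFC
  sqMass : SqMass468C

/-- STATE OF THE NODE: the open leaves (and the two dictionary leaves of the tower) give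
`T7.ThinC`. -/
theorem thin_of_open (O : ThinOpen) (hFQ : DictFQC) (hR : SqrtC) : ThinC :=
  thinTop468 hFQ hR Fermat.Agent.LT.T7.H682.degenC682 Fermat.Agent.LT.T7.H8.normSplitC_h8
    O.chebF Fermat.Agent.LT.T7.H91.classOneC91 Fermat.Agent.LT.T7.H468.horoCF468 O.sqMass
    Fermat.Agent.LT.T7.H980.dirichletC980

/-- The same with `DictFQC` discharged (helper922 `dictFQC922`). -/
theorem thin_of_open' (O : ThinOpen) (hR : SqrtC) : ThinC :=
  thin_of_open O Fermat.Agent.LT.T7.H922.dictFQC922 hR

/-- The same with `DictFQC` (helper922) and `SqrtC` (helper546 `sqrtC_h546`, H546/Sqrt.lean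
a5c736d2) discharged: THE NODE from its open leaves alone. -/
theorem thin_of_open'' (O : ThinOpen) : ThinC :=
  thin_of_open' O Fermat.Agent.LT.T7.H546.sqrtC_h546

end Fermat.Agent.LT.T7.H37
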