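import Fermat.Agent.LT.T7.H37.ThinNode
import Fermat.Agent.LT.T7.H768.HoroCoeffF

/-!
# Row LT, tower T7, node T7.13 `ThinC` (sub-architect helper37): THE NODE IS CLOSED

OFF-MAIN, ADDITIVE (new names only).  `thinC37 : T7.ThinC`, UNCONDITIONAL.

All ten leaves of the node are closed by byte-identical copies of the volunteers' files:

| leaf | registry | proof |
|---|---|---|
| T7.13a `DegenC` | 1269 | helper682 `degenC682` |
| T7.13b `NormSplitC` | 1270 | helper8 `normSplitC_h8` (on helper922 `DictFQ`) |
| T7.13c `ChebFC` | 1271 | helper341 `chebFC341` |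
| T7.13e `ClassOneC`, T7.13f `NormEmbC` | 1272 | helper91 `classOneC91`, `normEmbC91` |
| T7.13g `HoroFC` = `H468.HoroCF468` | 1273 | helper468 `horoCF468` (second proof: helper51) |
| T7.13h `NonconstFC` | 1274 | helper949 `nonconstFC949` |
| T7.13i `HoroCoeffFC` | 1275 | helper768 `horoCoeffFC768` |
| T7.13j `MSFC` | 1276 | helper236 `msfC236` |
| T7.13k `DirichletC` | 1277 | helper980 `dirichletC980` |
| T7.06 `DictFQC`, T7.09 `SqrtC` (leaves of `T7/Spec.lean`) | | helper922 `dictFQC922`, helper546 `sqrtC_h546` |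

A second, independent proof of the classical half (`SqMass468C`, registry row 1353, helper47
`sqMass468C47`) is kept in `ThinSpare.lean`.
-/

set_option autoImplicit false

namespace Fermat.Agent.LT.T7.H37

open Fermat.Agent.LT.T7 Fermat.Agent.LT.T7.H468

/-- `HoroCoeffFC` is closed (helper768). -/
theorem horoCoeffFC_closed37 : HoroCoeffFC := Fermat.Agent.LT.T7.H768.horoCoeffFC768

/-- The classical half `SqMass468C`, closed. -/
theorem sqMass468C_closed37 : SqMass468C := sqMass468C_of_horoCoeff horoCoeffFC_closed37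

/-- The node `MassC` of `ThinSpec.lean`, closed. -/
theorem massC_closed37 : MassC :=
  massTop468 Fermat.Agent.LT.T7.H91.classOneC91 Fermat.Agent.LT.T7.H468.horoCF468
    sqMass468C_closed37 Fermat.Agent.LT.T7.H980.dirichletC980

/-- **NODE T7.13 `ThinC`, UNCONDITIONAL.** -/
theorem thinC37 : ThinC := thinC_of_horoCoeff37 horoCoeffFC_closed37

end Fermat.Agent.LT.T7.H37
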