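import Fermat.Agent.LT.T7.H37.ThinClosed
import Fermat.Agent.LT.T7.H341.ChebF

/-!
# Row LT, tower T7, node T7.13 `ThinC` (sub-architect helper37): THE NODE FROM ONE LEAF

OFF-MAIN, ADDITIVE (after the freeze of 14:45Z): `ThinSpec.lean`, `ThinAdapt.lean`,
`ThinClosed.lean` are unchanged in bytes; this file only adds new names.

`T7.13c ChebFC` is CLOSED by helper341 (`chebFC341`, registry row 1271,
`LT/T7/H341/{ChebF f0501f44, ChebAux c743e3aa, ChebSplit db139abf, ChebTr f08ba369,
ChebGrp bbf19f7d}.lean`, byte-identical copies).  So 9 of the 10 leaves of the node are closed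
and ONE Prop is left, in either of its two forms:

* `SqMass468C` (row 1353, the classical half in one piece, package of helper47), or
* `HoroCoeffFC` (row 1275, Fourier analysis on `ℂ / M 𝓞_K`, helper768).

    thinC_of_sqMass37    : SqMass468C  → T7.ThinC
    thinC_of_horoCoeff37 : HoroCoeffFC → T7.ThinC
-/

set_option autoImplicit false

namespace Fermat.Agent.LT.T7.H37

open Fermat.Agent.LT.T7 Fermat.Agent.LT.T7.H468

/-- `ChebFC` is closed (helper341). -/
theorem chebFC_closed37 : ChebFC := Fermat.Agent.LT.T7.H341.chebFC341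

/-- The open part of the node with `ChebFC` discharged. -/
theorem thinOpen_of_sqMass37 (h : SqMass468C) : ThinOpen := ⟨chebFC_closed37, h⟩

/-- **THE NODE T7.13 FROM ITS ONE OPEN LEAF** (form of row 1353). -/
theorem thinC_of_sqMass37 (h : SqMass468C) : ThinC :=
  thin_of_open'' (thinOpen_of_sqMass37 h)

/-- **THE NODE T7.13 FROM ITS ONE OPEN LEAF** (form of row 1275). -/
theorem thinC_of_horoCoeff37 (h : HoroCoeffFC) : ThinC :=
  thinC_of_sqMass37 (sqMass468C_of_horoCoeff h)

end Fermat.Agent.LT.T7.H37
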