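import Fermat.Agent.LT.T7.H943.IotaSpec

/-!
# Row LT, tower T7, leaf T7.L2.1.C2.4.6 `H943.IotaEmbC943` (helper37, registry row 2527)

OFF-MAIN.  The base change of adeles `ι = bcAdele743 : 𝔸_K → 𝔸_L` of helper743 is a topological
embedding, for EVERY extension `L / K` of number fields.

    iotaEmbC37 K K' : H943.IotaEmbC943 K K'          (VERBATIM, unconditional)

Proof.  `ι = ι_∞ × ι_f`.
* `ι_∞ a u = infLoc u (a (u ∩ K))`: the local maps are isometries (`isometry_infLoc37`), the
  restriction of places is surjective, and a product of inducing maps along a surjection of the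
  index sets is inducing (`isInducing_piComp37`).
* `ι_f`: additive homomorphism of topological groups, so it is enough to compare the
  neighbourhoods of `0`.  The neighbourhoods of `0` of a restricted product are the images of the
  neighbourhoods of `0` of `∏ 𝒪_v` (Mathlib `RestrictedProduct.nhds_zero_eq_map_structureMap`);
  `|i_w x|_w = |x|_v ^ e(w | v)` (`valued_finLoc743` of helper743), so `i_w⁻¹ 𝒪_w = 𝒪_v` and the
  preimage of the ball of radius `g ^ e` is the ball of radius `g`; every place of `K` has a
  place of `L` over it and the fibres are finite.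
-/

set_option autoImplicit false
set_option linter.unusedSectionVars false

open IsDedekindDomain NumberField Filter Topology

noncomputable section

namespace Fermat.Agent.LT.T7.H37

open Fermat.Agent.LT.A2.H743

/-! ## 1. General topology: reindexed products -/

theorem isInducing_piComp37 {ι κ : Type*} {X : ι → Type*} {Y : κ → Type*}
    [∀ i, TopologicalSpace (X i)] [∀ j, TopologicalSpace (Y j)] (π : κ → ι)
    (hπ : Function.Surjective π) (φ : ∀ j, X (π j) → Y j)
    (hφ : ∀ j, IsInducing (φ j)) :
    IsInducing (fun (a : ∀ i, X i) (j : κ) => φ j (a (π j))) := by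
  constructor
  simp only [Pi.topologicalSpace, induced_iInf, induced_compose]
  apply le_antisymm
  · refine le_iInf fun j => ?_
    have h : ((fun b : ∀ j, Y j => b j) ∘ fun (a : ∀ i, X i) (j : κ) => φ j (a (π j)))
        = φ j ∘ (fun a : ∀ i, X i => a (π j)) := rfl
    rw [h, ← induced_compose, ← (hφ j).eq_induced]
    exact iInf_le _ (π j)
  · refine le_iInf fun i => ?_
    obtain ⟨j, rfl⟩ := hπ i
    refine (iInf_le _ j).trans ?_
    have h : ((fun b : ∀ j, Y j => b j) ∘ fun (a : ∀ i, X i) (j : κ) => φ j (a (π j)))
        = φ j ∘ (fun a : ∀ i, X i => a (π j)) := rfl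
    rw [h, ← induced_compose, ← (hφ j).eq_induced]

theorem injective_piComp37 {ι κ : Type*} {X : ι → Type*} {Y : κ → Type*} (π : κ → ι)
    (hπ : Function.Surjective π) (φ : ∀ j, X (π j) → Y j)
    (hφ : ∀ j, Function.Injective (φ j)) :
    Function.Injective (fun (a : ∀ i, X i) (j : κ) => φ j (a (π j))) := by
  intro a b h
  funext i
  obtain ⟨j, rfl⟩ := hπ i
  exact hφ j (congrFun h j)

/-! ## 2. The infinite part -/

variable (K L : Type) [Field K] [NumberField K] [Field L] [NumberField L] [Algebra K L]

theorem isometry_infLoc37 (u : InfinitePlace L) : Isometry (infLoc743 K L u) := by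
  have h1 : Isometry (InfinitePlace.Completion.toCompletion (v := infUnder743 K L u)) :=
    InfinitePlace.Completion.isometry_toCompletion _
  have h2 := (InfinitePlace.LiesOver.isometry_algebraMap u (infUnder743 K L u)).isometry_mapRingHom
  have h3 : Isometry (InfinitePlace.Completion.ofCompletion (v := u)) :=
    (InfinitePlace.Completion.isometryEquivCompletion u).symm.isometry
  exact h3.comp (h2.comp h1)

theorem infUnder_surjective37 : Function.Surjective (infUnder743 K L) := by
  intro v
  exact InfinitePlace.comap_surjective v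

theorem isEmbedding_infBC37 : IsEmbedding (infBC743 K L) := by
  refine ⟨?_, ?_⟩
  · exact isInducing_piComp37 (infUnder743 K L) (infUnder_surjective37 K L)
      (fun u => infLoc743 K L u) (fun u => (isometry_infLoc37 K L u).isEmbedding.isInducing)
  · exact injective_piComp37 (infUnder743 K L) (infUnder_surjective37 K L)
      (fun u => infLoc743 K L u) (fun u => (infLoc743 K L u).injective)


/-! ## 3. The finite part -/


theorem finUnder_surjective37 : Function.Surjective (finUnder743 K L) := by
  intro v
  obtain ⟨Q, hQ, hQv⟩ := Ideal.exists_maximal_ideal_liesOver_of_isIntegral (S := 𝓞 L) v.asIdeal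
  have hne : Q ≠ ⊥ := Ideal.ne_bot_of_liesOver_of_ne_bot v.ne_bot Q
  refine ⟨⟨Q, hQ.isPrime, hne⟩, ?_⟩
  apply HeightOneSpectrum.ext
  show Q.under (𝓞 K) = v.asIdeal
  exact (Ideal.over_def Q v.asIdeal).symm

section Local

variable {K}
variable (v : HeightOneSpectrum (𝓞 K))

/-- Every neighbourhood of `0` in `K_v` contains a ball `{x | v x < g}`, `g ≠ 0`. -/
theorem exists_ball_subset37 {s : Set (v.adicCompletion K)} (hs : s ∈ 𝓝 (0 : v.adicCompletion K)) :
    ∃ g : WithZero (Multiplicative ℤ), g ≠ 0 ∧
      {x : v.adicCompletion K | Valued.v x < g} ⊆ s := by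
  obtain ⟨γ, hγ⟩ := Valued.mem_nhds_zero.mp hs
  refine ⟨MonoidWithZeroHom.ValueGroup₀.embedding γ.1,
    MonoidWithZeroHom.ValueGroup₀.embedding_unit_ne_zero γ, fun x hx => hγ ?_⟩
  exact (Valuation.restrict_lt_iff_lt_embedding _).mpr hx

open WithZeroTopology in
/-- The balls `{x | v x < g}`, `g ≠ 0`, are neighbourhoods of `0` in `K_v`. -/
theorem ball_mem_nhds37 {g : WithZero (Multiplicative ℤ)} (hg : g ≠ 0) :
    {x : v.adicCompletion K | Valued.v x < g} ∈ 𝓝 (0 : v.adicCompletion K) := by
  have hc : Continuous (Valued.v : v.adicCompletion K → WithZero (Multiplicative ℤ)) :=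
    Valued.continuous_valuation_of_surjective (HeightOneSpectrum.valuedAdicCompletion_surjective K v)
  have ho : IsOpen {x : v.adicCompletion K | Valued.v x < g} :=
    WithZeroTopology.isOpen_Iio.preimage hc
  refine ho.mem_nhds ?_
  show Valued.v (0 : v.adicCompletion K) < g
  rw [map_zero]
  exact zero_lt_iff.mpr hg

end Local

theorem isInducing_finLoc37 (w : HeightOneSpectrum (𝓞 L)) : IsInducing (finLoc743 K L w) := by
  rw [IsTopologicalAddGroup.isInducing_iff_nhds_zero]
  apply le_antisymm
  · exact Filter.map_le_iff_le_comap.mp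
      ((continuous_finLoc743 K L w).tendsto' 0 0 (map_zero _))
  · intro s hs
    obtain ⟨g, hg, hgs⟩ := exists_ball_subset37 (finUnder743 K L w) hs
    refine Filter.mem_comap.mpr ⟨{y : w.adicCompletion L | Valued.v y < g ^ ramIdx743 K L w},
      ball_mem_nhds37 w (pow_ne_zero _ hg), fun x hx => hgs ?_⟩
    have h1 : Valued.v (finLoc743 K L w x) < g ^ ramIdx743 K L w := hx
    rw [valued_finLoc743] at h1
    exact (pow_lt_pow_iff_left₀ zero_le zero_le (ramIdx_ne_zero743 K L w)).mp h1

theorem finLoc_mem_integers_iff37 (w : HeightOneSpectrum (𝓞 L))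
    (x : (finUnder743 K L w).adicCompletion K) :
    finLoc743 K L w x ∈ w.adicCompletionIntegers L ↔
      x ∈ (finUnder743 K L w).adicCompletionIntegers K := by
  rw [HeightOneSpectrum.mem_adicCompletionIntegers, HeightOneSpectrum.mem_adicCompletionIntegers,
    valued_finLoc743]
  exact pow_le_one_iff_of_nonneg zero_le (ramIdx_ne_zero743 K L w)

theorem injective_finBC37 : Function.Injective (finBC743 K L) := by
  intro a b h
  refine FiniteAdeleRing.ext (R := 𝓞 K) (K := K) fun v => ?_
  obtain ⟨w, rfl⟩ := finUnder_surjective37 K L v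
  have h1 : finBC743 K L a w = finBC743 K L b w := by rw [h]
  rw [finBC_apply743, finBC_apply743] at h1
  exact (finLoc743 K L w).injective h1

theorem isInducing_finBC37 : IsInducing (finBC743 K L) := by
  rw [IsTopologicalAddGroup.isInducing_iff_nhds_zero]
  apply le_antisymm
  · exact Filter.map_le_iff_le_comap.mp
      ((continuous_finBC743 K L).tendsto' 0 0 (map_zero _))
  · intro U hU
    have hopenK : ∀ v : HeightOneSpectrum (𝓞 K),
        IsOpen (v.adicCompletionIntegers K : Set (v.adicCompletion K)) :=
      fun _ => Valued.isOpen_valuationSubring _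
    have hopenL : ∀ w : HeightOneSpectrum (𝓞 L),
        IsOpen (w.adicCompletionIntegers L : Set (w.adicCompletion L)) :=
      fun _ => Valued.isOpen_valuationSubring _
    have hK := RestrictedProduct.nhds_zero_eq_map_structureMap
      (R := fun v : HeightOneSpectrum (𝓞 K) => v.adicCompletion K)
      (B := fun v : HeightOneSpectrum (𝓞 K) => v.adicCompletionIntegers K) hopenK
    have hL := RestrictedProduct.nhds_zero_eq_map_structureMap
      (R := fun w : HeightOneSpectrum (𝓞 L) => w.adicCompletion L)
      (B := fun w : HeightOneSpectrum (𝓞 L) => w.adicCompletionIntegers L) hopenL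
    have hU' : U ∈ Filter.map (RestrictedProduct.structureMap
        (fun v : HeightOneSpectrum (𝓞 K) => v.adicCompletion K)
        (fun v : HeightOneSpectrum (𝓞 K) => (v.adicCompletionIntegers K : Set (v.adicCompletion K)))
        cofinite) (𝓝 0) := by
      rw [← hK]
      exact hU
    have h3 : (RestrictedProduct.structureMap
        (fun v : HeightOneSpectrum (𝓞 K) => v.adicCompletion K)
        (fun v : HeightOneSpectrum (𝓞 K) => (v.adicCompletionIntegers K : Set (v.adicCompletion K)))
        cofinite) ⁻¹' U ∈ 𝓝 (0 : ∀ v : HeightOneSpectrum (𝓞 K), v.adicCompletionIntegers K) := hU'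
    rw [nhds_pi, Filter.mem_pi] at h3
    obtain ⟨I, hI, t, ht, hsub⟩ := h3
    -- balls inside the `t v`
    have hball : ∀ v : HeightOneSpectrum (𝓞 K), ∃ g : WithZero (Multiplicative ℤ), g ≠ 0 ∧
        ∀ x : v.adicCompletionIntegers K, Valued.v (x : v.adicCompletion K) < g → x ∈ t v := by
      intro v
      have h1 := ht v
      rw [mem_nhds_subtype] at h1
      obtain ⟨u, hu, hut⟩ := h1
      obtain ⟨g, hg, hgu⟩ := exists_ball_subset37 v hu
      exact ⟨g, hg, fun x hx => hut (hgu hx)⟩
    choose g hg hgt using hball
    -- the neighbourhood upstairs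
    set J : Set (HeightOneSpectrum (𝓞 L)) := finUnder743 K L ⁻¹' I with hJdef
    have hJ : J.Finite := hI.preimage' (fun v _ => finite_fiber_finUnder743 K L v)
    set T : ∀ w : HeightOneSpectrum (𝓞 L), Set (w.adicCompletionIntegers L) :=
      fun w => {y | Valued.v (y : w.adicCompletion L)
        < g (finUnder743 K L w) ^ ramIdx743 K L w} with hTdef
    have hT : ∀ w, T w ∈ 𝓝 (0 : w.adicCompletionIntegers L) := by
      intro w
      rw [mem_nhds_subtype]
      exact ⟨_, ball_mem_nhds37 w (pow_ne_zero _ (hg _)), fun y hy => hy⟩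
    have hV : (RestrictedProduct.structureMap
        (fun w : HeightOneSpectrum (𝓞 L) => w.adicCompletion L)
        (fun w : HeightOneSpectrum (𝓞 L) => (w.adicCompletionIntegers L : Set (w.adicCompletion L)))
        cofinite) '' (J.pi T) ∈ 𝓝 (0 : FiniteAdeleRing (𝓞 L) L) := by
      have h4 : (RestrictedProduct.structureMap
        (fun w : HeightOneSpectrum (𝓞 L) => w.adicCompletion L)
        (fun w : HeightOneSpectrum (𝓞 L) => (w.adicCompletionIntegers L : Set (w.adicCompletion L)))
        cofinite) '' (J.pi T) ∈ Filter.map (RestrictedProduct.structureMap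
        (fun w : HeightOneSpectrum (𝓞 L) => w.adicCompletion L)
        (fun w : HeightOneSpectrum (𝓞 L) => (w.adicCompletionIntegers L : Set (w.adicCompletion L)))
        cofinite) (𝓝 0) :=
        Filter.image_mem_map (set_pi_mem_nhds hJ (fun w _ => hT w))
      rw [← hL] at h4
      exact h4
    refine Filter.mem_comap.mpr ⟨_, hV, ?_⟩
    rintro x ⟨y, hy, hxy⟩
    have hcomp : ∀ w : HeightOneSpectrum (𝓞 L),
        finLoc743 K L w (x (finUnder743 K L w)) = (y w : w.adicCompletion L) := fun w => by
      have h5 := congrArg (fun z : FiniteAdeleRing (𝓞 L) L => z w) hxy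
      exact h5.symm
    have hint : ∀ v : HeightOneSpectrum (𝓞 K), x v ∈ v.adicCompletionIntegers K := by
      intro v
      obtain ⟨w, rfl⟩ := finUnder_surjective37 K L v
      rw [← finLoc_mem_integers_iff37, hcomp]
      exact (y w).2
    have hx : x = RestrictedProduct.structureMap
        (fun v : HeightOneSpectrum (𝓞 K) => v.adicCompletion K)
        (fun v : HeightOneSpectrum (𝓞 K) => (v.adicCompletionIntegers K : Set (v.adicCompletion K)))
        cofinite (fun v => ⟨x v, hint v⟩) :=
      FiniteAdeleRing.ext (R := 𝓞 K) (K := K) fun v => rfl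
    rw [hx]
    apply hsub
    intro v hv
    apply hgt
    obtain ⟨w, rfl⟩ := finUnder_surjective37 K L v
    have hw : w ∈ J := hv
    have h2 : Valued.v ((y w : w.adicCompletionIntegers L) : w.adicCompletion L)
        < g (finUnder743 K L w) ^ ramIdx743 K L w := hy w hw
    rw [← hcomp, valued_finLoc743] at h2
    exact (pow_lt_pow_iff_left₀ zero_le zero_le (ramIdx_ne_zero743 K L w)).mp h2

theorem isEmbedding_finBC37 : IsEmbedding (finBC743 K L) :=
  ⟨isInducing_finBC37 K L, injective_finBC37 K L⟩

/-! ## 4. The adeles -/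

/-- **The base change of adeles is a topological embedding** (any extension of number fields). -/
theorem isEmbedding_bcAdele37 : IsEmbedding (bcAdele743 K L) :=
  (isEmbedding_infBC37 K L).prodMap (isEmbedding_finBC37 K L)

/-- **LEAF I.6 `IotaEmbC943` of helper943, VERBATIM.** -/
theorem iotaEmbC37 (K K' : Type) [Field K] [NumberField K] [Field K'] [NumberField K']
    [Algebra K K'] : Fermat.Agent.LT.T7.H943.IotaEmbC943 K K' :=
  isEmbedding_bcAdele37 K K'

end Fermat.Agent.LT.T7.H37

end
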