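import Fermat.Agent.LT.T7.H37.ThinSpec
import Fermat.Agent.LT.T7.H468.HoroFSpec

/-!
# Row LT, node T7.13 `ThinC` (sub-architect helper37): ADAPTERS to the shape of helper468

OFF-MAIN.  RULING: the adelic leaf of the node is `H468.HoroCF468`
(`LT/T7/H468/HoroFSpec.lean`, helper468@d0fa78fb9, sha256 12a41d06, byte-identical copy here).

* `horoDataF_of_468 : HoroDataF468 K w M A B U C → HoroDataF K w.embedding M A B U C`   (PROVED)
* `horoFC_of_468 : HoroCF468 → HoroFC`                                                  (PROVED)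
  so the leaves `NonconstFC`, `HoroCoeffFC`, `MSFC` of `ThinSpec.lean` (hypothesis `HoroDataF` /
  `SqCoeffData`) apply to the families of `HoroCF468`.
* `SqMass468C` : the CLASSICAL HALF in ONE Prop on the bytes of `HoroDataF468` (target of the
  package of helper47): non-constancy + Fourier coefficients + `star` + universality + block
  bound, in the SQUAREFREE form (no Hecke sequence is needed).
* `sqMass468C_of : NormEmbC → NonconstFC → HoroCoeffFC → MSFC → SqMass468C`             (PROVED)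
* `massTop468 : ClassOneC → HoroCF468 → SqMass468C → DirichletC → MassC`                (PROVED)
-/

set_option autoImplicit false

open AutomorphicForm IsDedekindDomain NumberField
open scoped MatrixGroups

noncomputable section

namespace Fermat.Agent.LT.T7.H37

open Fermat.Agent.LT.H556 Fermat.Agent.LT.T7 Fermat.Agent.LT.T7.H468

variable {K : Type} [Field K] [NumberField K]

theorem unitClsF_eq_468 (M : ℕ) (x : 𝓞 K) : unitClsF K M x = clsF468 M x := by
  classical
  unfold unitClsF clsF468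
  by_cases h : IsUnit (Ideal.Quotient.mk (Ideal.span {((M : ℕ) : 𝓞 K)}) x)
  · rw [dif_pos h]
  · rw [dif_neg h]

/-- A complete system of residues modulo `ϖ` has `N (ϖ)` elements. -/
theorem IsResSys.card_eq37 {ϖ : 𝓞 K} {R : Finset (𝓞 K)} (h : IsResSys K ϖ R) :
    R.card = Ideal.absNorm (Ideal.span {ϖ}) := by
  classical
  rw [Ideal.absNorm_apply, Submodule.cardQuot_apply]
  have hbij : Function.Bijective
      (fun j : R => (Ideal.Quotient.mk (Ideal.span {ϖ}) (j : 𝓞 K))) := by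
    constructor
    · intro j j' hjj
      have : (j : 𝓞 K) - j' ∈ Ideal.span {ϖ} := (Ideal.Quotient.eq).mp hjj
      exact Subtype.ext (h.2 j j.2 j' j'.2 (Ideal.mem_span_singleton.mp this))
    · intro q
      obtain ⟨x, rfl⟩ := Ideal.Quotient.mk_surjective q
      obtain ⟨j, hj, hd⟩ := h.1 x
      refine ⟨⟨j, hj⟩, ?_⟩
      symm
      exact (Ideal.Quotient.eq).mpr (Ideal.mem_span_singleton.mpr hd)
  have := Nat.card_eq_of_bijective _ hbij
  rw [← this, Nat.card_eq_fintype_card, Fintype.card_coe]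

/-- The horocycle data of helper468 are horocycle data in the sense of `ThinSpec.lean`. -/
theorem horoDataF_of_468 {w : InfinitePlace K} {M : ℕ} {A B : HeightOneSpectrum (𝓞 K) → ℂ}
    {U : (𝓞 K ⧸ Ideal.span {((M : ℕ) : 𝓞 K)})ˣ → ℂ → ℝ → ℂ} {C : ℝ}
    (D : HoroDataF468 K w M A B U C) : HoroDataF K w.embedding M A B U C where
  M_pos := D.M_pos
  cont_z := by
    intro κ y hy
    have h := D.cont κ
    have hc : Continuous fun z : ℂ => ((z, y) : ℂ × ℝ) := by fun_prop
    have := h.comp_continuous hc (fun z => hy)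
    exact this
  cont_y := by
    intro κ z
    have h := D.cont κ
    have hc : ContinuousOn (fun y : ℝ => ((z, y) : ℂ × ℝ)) (Set.Ioi 0) := by fun_prop
    exact h.comp hc (fun y hy => hy)
  bdd := D.bdd
  periodic := D.periodic
  hecke := by
    intro v ϖ hv hM R hR κ z y hy
    have hcard : R.card = Ideal.absNorm v.asIdeal := by rw [hv]; exact hR.card_eq37
    have hpair : ∀ r ∈ R, ∀ r' ∈ R, r ≠ r' → r - r' ∉ v.asIdeal := by
      intro r hr r' hr' hne hmem
      rw [hv] at hmem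
      exact hne (hR.2 r hr r' hr' (Ideal.mem_span_singleton.mp hmem))
    have := D.hecke v ϖ hv hM R hcard hpair κ z y hy
    rw [unitClsF_eq_468]
    exact this

/-- **ADAPTER (PROVED)**: the adelic leaf of helper468 gives the leaf `HoroFC`. -/
theorem horoFC_of_468 (h : HoroCF468) : HoroFC := by
  intro K _ _ hquad _ π φ hφ g₀
  obtain ⟨hcard, hcplx⟩ := hquad
  obtain ⟨w, hw⟩ := (Nat.card_eq_one_iff_exists).mp hcard
  obtain ⟨M, U, C, -, hD, x₀, y₀, hy₀, hU⟩ :=
    h K w (hcplx w) hw π φ hφ g₀ 1 one_ne_zero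
  exact ⟨w.embedding, M, U, C, horoDataF_of_468 hD, x₀, y₀, hy₀, hU⟩

/-- **LEAF T7.13m SQMASS468 (the classical half in ONE Prop, on the bytes of helper468).**
`K = ℚ(√-3)` (one infinite place, complex; `√-3 ∈ K`; class number one); a horocycle family
`HoroDataF468` with `|A v| ≤ 2`, `|B v| ≤ 1` almost everywhere and a non-zero value: the
squarefree mean square bound `∑_{T' ⊆ T, N T' ≤ X} ∏_{v ∈ T'} |A v|² ≤ C' X` for every finite
set `T` of places disjoint from a fixed finite set `S` and every `X ≥ 1`.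
(= `NonconstFC` + `HoroCoeffFC` + `MSFC` + `NormEmbC` of `ThinSpec.lean`.  No Hecke sequence:
with generators `ϖ_v`, `c (k ∏_{v ∈ T'} ϖ_v) y = ∏ (χ(ϖ_v)⁻¹ A_v N v^{-1/2}) · c k (y √(N T'))`
needs the Hecke relation at `ϖ ∤ ν` only; `S` = the places dividing `M k`, `c k ≢ 0`.) -/
def SqMass468C : Prop :=
  ∀ (K : Type) [Field K] [NumberField K] (w : InfinitePlace K), w.IsComplex →
    (∀ w' : InfinitePlace K, w' = w) → HasSqrtNegThree K → IsPrincipalIdealRing (𝓞 K) →
    ∀ (M : ℕ) (A B : HeightOneSpectrum (𝓞 K) → ℂ)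
      (U : (𝓞 K ⧸ idM468 K M)ˣ → ℂ → ℝ → ℂ) (C : ℝ), HoroDataF468 K w M A B U C →
      (∃ S : Finset (HeightOneSpectrum (𝓞 K)), ∀ v : HeightOneSpectrum (𝓞 K), v ∉ S →
        ‖A v‖ ≤ 2 ∧ ‖B v‖ ≤ 1) →
      (∃ (κ : (𝓞 K ⧸ idM468 K M)ˣ) (x : ℂ) (y : ℝ), 0 < y ∧ U κ x y ≠ 0) →
      ∃ (S : Finset (HeightOneSpectrum (𝓞 K))) (C' : ℝ),
        ∀ T : Finset (HeightOneSpectrum (𝓞 K)), Disjoint T S → ∀ X : ℝ, 1 ≤ X →
          ∑ T' ∈ T.powerset.filter (fun T' => ∏ v ∈ T', nrm v ≤ X), ∏ v ∈ T', ‖A v‖ ^ 2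
            ≤ C' * X

/-- **ADAPTER (PROVED)**: the classical half `SqMass468C` from the leaves `NormEmbC`,
`NonconstFC`, `HoroCoeffFC`, `MSFC` of `ThinSpec.lean` (registry rows 1272, 1274, 1275, 1276). -/
theorem sqMass468C_of (hNE : NormEmbC) (hNC : NonconstFC) (hCo : HoroCoeffFC) (hMS : MSFC) :
    SqMass468C := by
  intro K _ _ w hw huniq hsq hpid M A B U C hD hsmall hne
  have hquad : IsImagQuad K := by
    refine ⟨(Nat.card_eq_one_iff_exists).mpr ⟨w, huniq⟩, fun w' => ?_⟩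
    rw [huniq w']
    exact hw
  have hD' := horoDataF_of_468 hD
  have hnc := hNC K hpid w.embedding M A B U C hD' hsmall hne
  obtain ⟨χ, c, M₁, hCD, hk⟩ := hCo K hquad hsq hpid w.embedding M A B U C hD' hnc
  exact hMS K hpid w.embedding M A χ c M₁ hD.M_pos (hNE K hquad w.embedding) hCD hk

/-- **THE TOP OF NODE T7.13d, second form (PROVED)**: the mass bound over `K = ℚ(√-3)` from the
adelic leaf of helper468, the classical half `SqMass468C`, `ClassOneC` and `DirichletC`. -/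
theorem massTop468 (hCl : ClassOneC) (hH : HoroCF468) (hSq : SqMass468C) (hDir : DirichletC) :
    MassC := by
  intro K _ _ hquad hsq π hcusp hsmall
  have hpid : IsPrincipalIdealRing (𝓞 K) := hCl K hquad hsq
  obtain ⟨hcard, hcplx⟩ := hquad
  obtain ⟨w, hw⟩ := (Nat.card_eq_one_iff_exists).mp hcard
  obtain ⟨φ, hφ⟩ := hcusp
  obtain ⟨g₀, hg₀⟩ := hφ.ne_zero
  obtain ⟨M, U, C, -, hD, x₀, y₀, hy₀, hlink⟩ := hH K w (hcplx w) hw π φ hφ g₀ 1 one_ne_zero
  obtain ⟨S₀, hS₀⟩ := hsmall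
  have hsmall' : ∃ S : Finset (HeightOneSpectrum (𝓞 K)), ∀ v : HeightOneSpectrum (𝓞 K),
      v ∉ S → ‖π.a v‖ ≤ 2 ∧ ‖π.b v‖ ≤ 1 :=
    ⟨S₀, fun v hv => ⟨(hS₀ v hv).1, by rw [(hS₀ v hv).2, norm_one]⟩⟩
  have hne : ∃ (κ : (𝓞 K ⧸ idM468 K M)ˣ) (x : ℂ) (y : ℝ), 0 < y ∧ U κ x y ≠ 0 :=
    ⟨1, x₀, y₀, hy₀, by rw [hlink]; exact hg₀⟩
  obtain ⟨S, C₁, hms⟩ := hSq K w (hcplx w) hw hsq hpid M π.a π.b U C hD hsmall' hne
  classical
  obtain ⟨C', hC'⟩ := hDir (HeightOneSpectrum (𝓞 K)) nrm (fun v => ‖π.a v‖ ^ 2) (S ∪ S₀) C₁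
    two_le_nrm37
    (fun v hv => by
      have hv₀ : v ∉ S₀ := fun h => hv (Finset.mem_union_right _ h)
      have h2 := (hS₀ v hv₀).1
      have h0 := norm_nonneg (π.a v)
      constructor
      · positivity
      · nlinarith)
    (fun T hT X hX => hms T (Finset.disjoint_of_subset_right Finset.subset_union_left hT) X hX)
  exact ⟨S ∪ S₀, C', fun s hs1 hs2 T hT => hC' s hs1 hs2 T hT⟩

/-- `ThinC` through the second form of the mass bound. -/
theorem thinTop468 (hFQ : DictFQC) (hR : SqrtC) (hDeg : DegenC) (hNorm : NormSplitC)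
    (hCheb : ChebFC) (hCl : ClassOneC) (hH : HoroCF468) (hSq : SqMass468C)
    (hDir : DirichletC) : ThinC :=
  thinTop hFQ hR hDeg hNorm hCheb (massTop468 hCl hH hSq hDir)

end Fermat.Agent.LT.T7.H37

end
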